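/-
S33 / top level, block (ALG) of `moonshots` row 61 (helper15): **the operator identity
`(ρτ − det ρτ)(ρσ' − 1) = 0` on inertia is equivalent to ordinarity.**

`A` a local ring, `ρ : GaloisRepAdic A` (free of rank `2`), `P` a place of `ℚ̄`, `I_P ⊲ D_P` its inertia
and decomposition groups.  `Omega ρ τ σ' := (ρτ − det ρτ)(ρσ' − 1) ∈ End_A V`.

* `exists_basis_of_quadratic` (linear algebra): an automorphism `s` of a free module of rank `2` over
  a local ring with `(s − a)(s − 1) = 0`, `det s = a`, `a − 1` a unit, has `ker (s − a) = range (s − 1)`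
  spanned by the first vector of a basis;
* `exists_line_of_omega` : if `σ₀ ∈ I_P` has `det ρσ₀ − 1` a unit and `Omega ρ σ₀ σ' = 0` for all
  `σ' ∈ I_P`, then the body of the frozen `IsOrdinaryAt` holds at `P`;
* `isOrdinaryAt_of_omega` : the frozen `GaloisRepAdic.IsOrdinaryAt p`;
* `omega_eq_zero_of_line`, `omega_eq_zero_of_isOrdinaryAt` : the converse.
-/
import Mathlib
import Fermat.Prelude.Def_GaloisRep_LocalConditions
import Fermat.Agent.N4F.Core

set_option autoImplicit false
set_option linter.unusedSectionVars false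
set_option linter.style.haveILetI false

noncomputable section

namespace Fermat.Agent.S33.Alg.Ordinary

open Module

/-! ### Linear algebra over a local ring -/

section LinAlg

variable {A : Type} [CommRing A] [IsLocalRing A] {V : Type} [AddCommGroup V] [Module A V]
  [Module.Free A V] [Module.Finite A V]

/-- A direct summand of a finite free module over a local ring is free. -/
theorem free_of_isCompl {L K : Submodule A V} (h : IsCompl L K) :
    Module.Free A L ∧ Module.Finite A L := by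
  haveI : Module.Projective A L :=
    Module.Projective.of_split L.subtype (L.projectionOnto K h) (by
      ext x
      simp)
  haveI : Module.Finite A L :=
    Module.Finite.of_surjective (L.projectionOnto K h) (Submodule.projectionOnto_surjective h)
  exact ⟨Module.free_of_flat_of_isLocalRing, inferInstance⟩

theorem finrank_add_of_isCompl {L K : Submodule A V} (h : IsCompl L K) :
    finrank A L + finrank A K = finrank A V := by
  obtain ⟨h1, h2⟩ := free_of_isCompl h
  obtain ⟨h3, h4⟩ := free_of_isCompl h.symm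
  rw [← (Submodule.prodEquivOfIsCompl L K h).finrank_eq, Module.finrank_prod]

/-- **Linear algebra core of (ALG).** -/
theorem exists_basis_of_quadratic (hV : finrank A V = 2) (s : Module.End A V) (hs : IsUnit s) (a : A)
    (ha : IsUnit (a - 1)) (hdet : LinearMap.det s = a)
    (hq : (s - algebraMap A (Module.End A V) a) * (s - 1) = 0) :
    ∃ b : Module.Basis (Fin 2) A V,
      LinearMap.ker (s - algebraMap A (Module.End A V) a) = Submodule.span A {b 0} ∧
      LinearMap.range (s - 1) = Submodule.span A {b 0} := by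
  haveI : Nontrivial A := inferInstance
  obtain ⟨u, hu⟩ := ha.exists_left_inv
  -- `(s − 1)² = (a − 1)(s − 1)`
  have hsq : (s - 1) * (s - 1) = (a - 1) • (s - 1) := by
    have h1 : s * (s - 1) = a • (s - 1) := by
      have := hq
      rw [sub_mul, sub_eq_zero, Algebra.algebraMap_eq_smul_one, smul_mul_assoc, one_mul] at this
      exact this
    rw [sub_mul, h1, one_mul, sub_smul, one_smul]
  -- the idempotent
  set e : Module.End A V := u • (s - 1) with he_def
  have he : IsIdempotentElem e := by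
    show e * e = e
    rw [he_def, smul_mul_smul_comm, hsq, smul_smul, mul_assoc, hu, mul_one]
  have hrange : LinearMap.range e = LinearMap.range (s - 1) := by
    apply le_antisymm
    · rintro _ ⟨v, rfl⟩
      exact ⟨u • v, by simp [he_def]⟩
    · rintro _ ⟨v, rfl⟩
      refine ⟨(a - 1) • v, ?_⟩
      rw [he_def, LinearMap.smul_apply, map_smul, smul_smul, hu, one_smul]
  have hker : LinearMap.ker (s - algebraMap A (Module.End A V) a) = LinearMap.range e := by
    ext v
    rw [LinearMap.IsIdempotentElem.mem_range_iff he, LinearMap.mem_ker]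
    constructor
    · intro hv
      have h1 : s v = a • v := by
        rw [LinearMap.sub_apply, sub_eq_zero] at hv
        rw [hv]; rfl
      rw [he_def, LinearMap.smul_apply, LinearMap.sub_apply, h1, Module.End.one_apply]
      have h2 : a • v - v = (a - 1) • v := by rw [sub_smul, one_smul]
      rw [h2, smul_smul, hu, one_smul]
    · intro hv
      rw [← hv, he_def, LinearMap.smul_apply, map_smul]
      have := LinearMap.congr_fun hq v
      rw [Module.End.mul_apply, LinearMap.zero_apply] at this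
      rw [this, smul_zero]
  set L := LinearMap.range e with hL
  set K := LinearMap.ker e with hK
  have hc : IsCompl L K := LinearMap.IsIdempotentElem.isCompl he
  obtain ⟨hLfree, hLfin⟩ := free_of_isCompl hc
  obtain ⟨hKfree, hKfin⟩ := free_of_isCompl hc.symm
  have hrk := finrank_add_of_isCompl hc
  rw [hV] at hrk
  -- the rank of `L` is `1`
  have hL1 : finrank A L = 1 := by
    have h0 : finrank A L ≠ 0 := by
      intro h0
      have hsub : Subsingleton L := (Module.finrank_eq_zero_iff_of_free A L).1 h0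
      have he0 : e = 0 := by
        ext v
        have : (⟨e v, ⟨v, rfl⟩⟩ : L) = 0 := Subsingleton.elim _ _
        exact congrArg Subtype.val this
      have hs1 : s - 1 = 0 := by
        have h1 : (a - 1) • e = s - 1 := by
          rw [he_def, smul_smul, mul_comm, hu, one_smul]
        rw [← h1, he0, smul_zero]
      have hs1' : s = 1 := sub_eq_zero.1 hs1
      rw [hs1', map_one] at hdet
      rw [← hdet, sub_self] at ha
      exact not_isUnit_zero ha
    have h2 : finrank A L ≠ 2 := by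
      intro h2
      have hK0 : finrank A K = 0 := by omega
      have hsub : Subsingleton K := (Module.finrank_eq_zero_iff_of_free A K).1 hK0
      have he1 : e = 1 := by
        ext v
        have hv : v - e v ∈ K := by
          rw [hK, LinearMap.mem_ker, map_sub, ← Module.End.mul_apply, he.eq, sub_self]
        have : (⟨v - e v, hv⟩ : K) = 0 := Subsingleton.elim _ _
        have h3 : v - e v = 0 := congrArg Subtype.val this
        rw [Module.End.one_apply]
        exact (sub_eq_zero.1 h3).symm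
      have hs1 : s = a • (1 : Module.End A V) := by
        have h1 : (a - 1) • e = s - 1 := by
          rw [he_def, smul_smul, mul_comm, hu, one_smul]
        rw [he1, sub_smul, one_smul] at h1
        have := sub_eq_sub_iff_add_eq_add.1 h1
        exact (add_right_cancel this).symm
      have hdet2 : LinearMap.det s = a ^ 2 := by
        rw [hs1, LinearMap.det_smul, map_one, mul_one, hV]
      rw [hdet] at hdet2
      have ha0 : a * (a - 1) = 0 := by rw [mul_sub, mul_one, ← sq, ← hdet2, sub_self]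
      have ha0' : a = 0 := by
        have := congrArg (· * u) ha0
        simp only [zero_mul] at this
        rw [mul_assoc, mul_comm (a - 1) u, hu, mul_one] at this
        exact this
      have hdu : IsUnit (LinearMap.det s) := by
        obtain ⟨t, ht⟩ := hs
        have h3 : LinearMap.det s * LinearMap.det (↑t⁻¹ : Module.End A V) = 1 := by
          rw [← map_mul, ← ht, Units.mul_inv, map_one]
        exact IsUnit.of_mul_eq_one _ h3
      rw [hdet, ha0'] at hdu
      exact not_isUnit_zero hdu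
    omega
  have hK1 : finrank A K = 1 := by omega
  -- the basis
  let bL : Module.Basis (Fin 1) A L := Module.finBasisOfFinrankEq A L hL1
  let bK : Module.Basis (Fin 1) A K := Module.finBasisOfFinrankEq A K hK1
  let b₀ : Module.Basis (Fin 1 ⊕ Fin 1) A V := (bL.prod bK).map (Submodule.prodEquivOfIsCompl L K hc)
  let b : Module.Basis (Fin 2) A V := b₀.reindex finSumFinEquiv
  have hb0 : b 0 = (bL 0 : V) := by
    have h1 : b 0 = b₀ (Sum.inl 0) := by
      rw [Module.Basis.reindex_apply]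
      rfl
    rw [h1, Module.Basis.map_apply, Submodule.coe_prodEquivOfIsCompl', Module.Basis.prod_apply_inl_fst,
      Module.Basis.prod_apply_inl_snd, Submodule.coe_zero, add_zero]
  have hspan : L = Submodule.span A {b 0} := by
    have h1 : Submodule.span A (Set.range bL) = ⊤ := bL.span_eq
    have h2 : Set.range bL = {bL 0} := by
      ext x
      simp only [Set.mem_range, Set.mem_singleton_iff]
      constructor
      · rintro ⟨i, rfl⟩
        rw [Subsingleton.elim i 0]
      · rintro rfl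
        exact ⟨0, rfl⟩
    rw [h2] at h1
    have h3 := congrArg (Submodule.map L.subtype) h1
    rw [Submodule.map_span, Set.image_singleton, Submodule.map_top, Submodule.range_subtype] at h3
    rw [hb0]
    exact h3.symm
  exact ⟨b, hker.trans hspan, hrange.symm.trans hspan⟩

end LinAlg

/-! ### The operator `Ω` and ordinarity -/

section Galois

variable {A : Type} [CommRing A] [IsLocalRing A] (ρ : GaloisRepAdic A)

local notation "GQ" => (AlgebraicClosure ℚ ≃ₐ[ℚ] AlgebraicClosure ℚ)

/-- `Ω(τ, σ') = (ρτ − det ρτ)(ρσ' − 1)`. -/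
def Omega (τ σ' : GQ) : Module.End A ρ.V :=
  (ρ.ρ τ - algebraMap A (Module.End A ρ.V) (LinearMap.det (ρ.ρ τ))) * (ρ.ρ σ' - 1)

theorem Omega_apply (τ σ' : GQ) (v : ρ.V) :
    Omega ρ τ σ' v = ρ.ρ τ (ρ.ρ σ' v - v) - LinearMap.det (ρ.ρ τ) • (ρ.ρ σ' v - v) := rfl

theorem isUnit_rho (σ : GQ) : IsUnit (ρ.ρ σ) :=
  IsUnit.of_mul_eq_one (ρ.ρ σ⁻¹) (by rw [← map_mul, mul_inv_cancel, map_one])

/-- **(ALG), one place.**  If `σ₀ ∈ I_P` has `det ρσ₀ − 1` a unit and `Ω(σ₀, σ') = 0` for all
`σ' ∈ I_P`, then the body of the frozen `IsOrdinaryAt` holds at `P`, with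
`L = ker (ρσ₀ − det ρσ₀) = (ρσ₀ − 1)V`. -/
theorem exists_line_of_omega (P : ValuationSubring (AlgebraicClosure ℚ)) {σ₀ : GQ}
    (hσ₀ : σ₀ ∈ P.inertiaSubgroupIn ℚ) (hu : IsUnit (LinearMap.det (ρ.ρ σ₀) - 1))
    (hΩ : ∀ σ' ∈ P.inertiaSubgroupIn ℚ, Omega ρ σ₀ σ' = 0) :
    ∃ L : Submodule A ρ.V,
      (∃ b : Module.Basis (Fin 2) A ρ.V, L = A ∙ b 0) ∧
      (∀ σ ∈ P.decompositionSubgroup ℚ, ∀ v ∈ L, ρ.ρ σ v ∈ L) ∧
      (∀ σ ∈ P.inertiaSubgroupIn ℚ, ∀ v : ρ.V, ρ.ρ σ v - v ∈ L) := by
  obtain ⟨b, hker, hrange⟩ := exists_basis_of_quadratic ρ.finrank_eq (ρ.ρ σ₀) (isUnit_rho ρ σ₀)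
    (LinearMap.det (ρ.ρ σ₀)) hu rfl (hΩ σ₀ hσ₀)
  have hI : ∀ σ ∈ P.inertiaSubgroupIn ℚ, ∀ v : ρ.V, ρ.ρ σ v - v ∈ Submodule.span A {b 0} := by
    intro σ hσ v
    rw [← hker, LinearMap.mem_ker]
    exact LinearMap.congr_fun (hΩ σ hσ) v
  refine ⟨Submodule.span A {b 0}, ⟨b, rfl⟩, ?_, hI⟩
  intro g hg v hv
  rw [← hrange] at hv
  obtain ⟨w, rfl⟩ := hv
  have hconj := Fermat.Agent.N4F.Core.conj_mem_inertiaSubgroupIn hg hσ₀
  have h1 := hI _ hconj (ρ.ρ g w)
  have h2 : ρ.ρ (g * σ₀ * g⁻¹) (ρ.ρ g w) - ρ.ρ g w = ρ.ρ g ((ρ.ρ σ₀ - 1) w) := by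
    rw [← Module.End.mul_apply, ← map_mul, inv_mul_cancel_right, map_mul, Module.End.mul_apply,
      LinearMap.sub_apply, Module.End.one_apply, map_sub]
  rw [h2] at h1
  exact h1

/-- **(ALG).**  The frozen `IsOrdinaryAt p` from the operator identity at one inertia element per
place over `p`. -/
theorem isOrdinaryAt_of_omega (p : ℕ)
    (h : ∀ P : ValuationSubring (AlgebraicClosure ℚ), P.LiesOverPrime p →
      ∃ σ₀ ∈ P.inertiaSubgroupIn ℚ, IsUnit (LinearMap.det (ρ.ρ σ₀) - 1) ∧
        ∀ σ' ∈ P.inertiaSubgroupIn ℚ, Omega ρ σ₀ σ' = 0) :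
    ρ.IsOrdinaryAt p := by
  intro P hP
  obtain ⟨σ₀, hσ₀, hu, hΩ⟩ := h P hP
  exact exists_line_of_omega ρ P hσ₀ hu hΩ

/-- The converse, one place: an ordinary line kills `Ω`. -/
theorem omega_eq_zero_of_line (P : ValuationSubring (AlgebraicClosure ℚ)) (L : Submodule A ρ.V)
    (b : Module.Basis (Fin 2) A ρ.V) (hL : L = A ∙ b 0)
    (hstab : ∀ σ ∈ P.inertiaSubgroupIn ℚ, ∀ v ∈ L, ρ.ρ σ v ∈ L)
    (hI : ∀ σ ∈ P.inertiaSubgroupIn ℚ, ∀ v : ρ.V, ρ.ρ σ v - v ∈ L)
    {τ σ' : GQ} (hτ : τ ∈ P.inertiaSubgroupIn ℚ) (hσ' : σ' ∈ P.inertiaSubgroupIn ℚ) :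
    Omega ρ τ σ' = 0 := by
  -- `ρτ b₀ = c b₀`, `ρτ b₁ = b₁ + d b₀`
  have hb0 : b 0 ∈ L := by rw [hL]; exact Submodule.mem_span_singleton_self _
  obtain ⟨c, hc⟩ := Submodule.mem_span_singleton.1 (hL ▸ hstab τ hτ (b 0) hb0)
  obtain ⟨d, hd⟩ := Submodule.mem_span_singleton.1 (hL ▸ hI τ hτ (b 1))
  have hdet : LinearMap.det (ρ.ρ τ) = c := by
    rw [← LinearMap.det_toMatrix b, Matrix.det_fin_two]
    have h00 : LinearMap.toMatrix b b (ρ.ρ τ) 0 0 = c := by
      rw [LinearMap.toMatrix_apply, ← hc, map_smul, Module.Basis.repr_self]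
      simp
    have h10 : LinearMap.toMatrix b b (ρ.ρ τ) 1 0 = 0 := by
      rw [LinearMap.toMatrix_apply, ← hc, map_smul, Module.Basis.repr_self]
      simp
    have h11 : LinearMap.toMatrix b b (ρ.ρ τ) 1 1 = 1 := by
      have h3 : ρ.ρ τ (b 1) = d • b 0 + b 1 := by rw [hd]; abel
      rw [LinearMap.toMatrix_apply, h3, map_add, map_smul, Module.Basis.repr_self,
        Module.Basis.repr_self]
      simp
    rw [h00, h10, h11, mul_one, mul_zero, sub_zero]
  ext v
  rw [Omega_apply, LinearMap.zero_apply, hdet]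
  obtain ⟨t, ht⟩ := Submodule.mem_span_singleton.1 (hL ▸ hI σ' hσ' v)
  rw [← ht, map_smul, ← hc, smul_comm, sub_self]

/-- The converse: ordinary representations satisfy the operator identity on inertia. -/
theorem omega_eq_zero_of_isOrdinaryAt {p : ℕ} (h : ρ.IsOrdinaryAt p)
    (P : ValuationSubring (AlgebraicClosure ℚ)) (hP : P.LiesOverPrime p) {τ σ' : GQ}
    (hτ : τ ∈ P.inertiaSubgroupIn ℚ) (hσ' : σ' ∈ P.inertiaSubgroupIn ℚ) : Omega ρ τ σ' = 0 := by
  obtain ⟨L, ⟨b, hL⟩, hstab, hI⟩ := h P hP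
  refine omega_eq_zero_of_line ρ P L b hL (fun σ hσ v hv => hstab σ ?_ v hv) hI hτ hσ'
  exact ((Fermat.Agent.N4F.Core.mem_inertiaSubgroupIn_iff P σ).1 hσ).1

end Galois

/-! ### Base change, the ideal trick `(OLD) + (NEW) + (RED) ⇒ Ω = 0` -/

section Ideal

open scoped TensorProduct

variable {A : Type} [CommRing A] [IsLocalRing A] (ρ : GaloisRepAdic A)

local notation "GQ" => (AlgebraicClosure ℚ ≃ₐ[ℚ] AlgebraicClosure ℚ)

/-- the operator `(f − det f)(g − 1)` commutes with base change -/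
theorem baseChange_omegaOp {B : Type} [CommRing B] [Algebra A B] {V : Type} [AddCommGroup V]
    [Module A V] [Module.Free A V] [Module.Finite A V] (f g : Module.End A V) :
    (f.baseChange B - algebraMap B (Module.End B (B ⊗[A] V)) (LinearMap.det (f.baseChange B))) *
        (g.baseChange B - 1) =
      ((f - algebraMap A (Module.End A V) (LinearMap.det f)) * (g - 1)).baseChange B := by
  have h2 : (algebraMap A (Module.End A V) (LinearMap.det f)).baseChange B =
      algebraMap B (Module.End B (B ⊗[A] V)) (algebraMap A B (LinearMap.det f)) := by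
    ext v
    show (1 : B) ⊗ₜ[A] (LinearMap.det f • v) = algebraMap A B (LinearMap.det f) • ((1 : B) ⊗ₜ[A] v)
    rw [TensorProduct.tmul_smul, algebraMap_smul]
  rw [LinearMap.det_baseChange, LinearMap.baseChange_mul, LinearMap.baseChange_sub,
    LinearMap.baseChange_sub, LinearMap.baseChange_one, h2]

/-- `Ω` commutes with base change. -/
theorem Omega_baseChangeAlong {B : Type} [CommRing B] [IsLocalRing B] (φ : A →+* B)
    (hφ : IsLocalHom φ) (τ σ' : GQ) :
    letI : Algebra A B := φ.toAlgebra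
    Omega (ρ.baseChangeAlong φ hφ) τ σ' = (Omega ρ τ σ').baseChange B := by
  letI : Algebra A B := φ.toAlgebra
  exact baseChange_omegaOp (ρ.ρ τ) (ρ.ρ σ')

/-- If the base change of an endomorphism to `B` vanishes, its matrix entries lie in the kernel. -/
theorem repr_mem_ker_of_baseChange_eq_zero {B : Type} [CommRing B] [Algebra A B]
    {V : Type} [AddCommGroup V] [Module A V] {ι : Type} (b : Module.Basis ι A V)
    (f : Module.End A V) (hf : f.baseChange B = 0) (i j : ι) :
    algebraMap A B (b.repr (f (b j)) i) = 0 := by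
  have h1 : (b.baseChange B).repr ((1 : B) ⊗ₜ[A] f (b j)) i = algebraMap A B (b.repr (f (b j)) i) :=
    (Module.Basis.baseChange_repr_tmul B b (1 : B) (f (b j)) i).trans
      (Algebra.algebraMap_eq_smul_one _).symm
  rw [← h1]
  have h2 : (1 : B) ⊗ₜ[A] f (b j) = f.baseChange B ((1 : B) ⊗ₜ[A] b j) :=
    (LinearMap.baseChange_tmul f (1 : B) (b j)).symm
  rw [h2, hf, LinearMap.zero_apply, map_zero, Finsupp.zero_apply]

/-- **(RED)**: an endomorphism with entries in `𝔞` and killed by `𝔞` vanishes when the ring is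
reduced. -/
theorem eq_zero_of_entries_mem [IsReduced A] {V : Type} [AddCommGroup V] [Module A V] {ι : Type}
    (b : Module.Basis ι A V) (𝔞 : Ideal A) (f : Module.End A V)
    (hold : ∀ i j, b.repr (f (b j)) i ∈ 𝔞) (hnew : ∀ t ∈ 𝔞, t • f = 0) : f = 0 := by
  refine b.ext fun j => ?_
  rw [LinearMap.zero_apply]
  apply b.repr.injective
  ext i
  rw [map_zero, Finsupp.zero_apply]
  have h1 := hnew _ (hold i j)
  have h2 : b.repr (f (b j)) i * b.repr (f (b j)) i = 0 := by
    have h3 := congrArg (fun g : Module.End A V => b.repr (g (b j)) i) h1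
    simpa using h3
  exact (IsReduced.eq_zero _ ⟨2, by rw [sq]; exact h2⟩)

/-- **Top level of `moonshots` row 61.**  `T = A` reduced and local, `𝔞` an ideal, `φ : A → B` a
local homomorphism with kernel `⊆ 𝔞` such that the base change of `ρ` to `B` is ordinary at `p`
((OLD); `B = A ⧸ 𝔞`), `𝔞 · Ω = 0` on inertia ((NEW)), and an inertia element with `det − 1` a unit at
every place over `p`: then `ρ` is ordinary at `p`.  If `𝔞 = ⊤` use `isOrdinaryAt_of_new_top`. -/
theorem isOrdinaryAt_of_old_new [IsReduced A] (p : ℕ) (𝔞 : Ideal A)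
    {B : Type} [CommRing B] [IsLocalRing B] (φ : A →+* B) (hφ : IsLocalHom φ)
    (hker : RingHom.ker φ ≤ 𝔞)
    (hσ₀ : ∀ P : ValuationSubring (AlgebraicClosure ℚ), P.LiesOverPrime p →
      ∃ σ₀ ∈ P.inertiaSubgroupIn ℚ, IsUnit (LinearMap.det (ρ.ρ σ₀) - 1))
    (hold : (ρ.baseChangeAlong φ hφ).IsOrdinaryAt p)
    (hnew : ∀ P : ValuationSubring (AlgebraicClosure ℚ), P.LiesOverPrime p →
      ∀ τ ∈ P.inertiaSubgroupIn ℚ, ∀ σ' ∈ P.inertiaSubgroupIn ℚ, ∀ t ∈ 𝔞, t • Omega ρ τ σ' = 0) :
    ρ.IsOrdinaryAt p := by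
  letI : Algebra A B := φ.toAlgebra
  refine isOrdinaryAt_of_omega ρ p fun P hP => ?_
  obtain ⟨σ₀, hσ₀I, hu⟩ := hσ₀ P hP
  refine ⟨σ₀, hσ₀I, hu, fun σ' hσ' => ?_⟩
  have h0 : (Omega ρ σ₀ σ').baseChange B = 0 := by
    rw [← Omega_baseChangeAlong ρ φ hφ]
    exact omega_eq_zero_of_isOrdinaryAt _ hold P hP hσ₀I hσ'
  let b : Module.Basis (Fin 2) A ρ.V := Module.finBasisOfFinrankEq A ρ.V ρ.finrank_eq
  refine eq_zero_of_entries_mem b 𝔞 _ (fun i j => hker ?_) (hnew P hP σ₀ hσ₀I σ' hσ')
  exact repr_mem_ker_of_baseChange_eq_zero b _ h0 i j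

/-- The degenerate case `𝔞 = ⊤` of the ideal trick: `Ω = 0` directly from (NEW). -/
theorem isOrdinaryAt_of_new_top (p : ℕ)
    (hσ₀ : ∀ P : ValuationSubring (AlgebraicClosure ℚ), P.LiesOverPrime p →
      ∃ σ₀ ∈ P.inertiaSubgroupIn ℚ, IsUnit (LinearMap.det (ρ.ρ σ₀) - 1))
    (hnew : ∀ P : ValuationSubring (AlgebraicClosure ℚ), P.LiesOverPrime p →
      ∀ τ ∈ P.inertiaSubgroupIn ℚ, ∀ σ' ∈ P.inertiaSubgroupIn ℚ, Omega ρ τ σ' = 0) :
    ρ.IsOrdinaryAt p := by
  refine isOrdinaryAt_of_omega ρ p fun P hP => ?_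
  obtain ⟨σ₀, hσ₀I, hu⟩ := hσ₀ P hP
  exact ⟨σ₀, hσ₀I, hu, fun σ' hσ' => hnew P hP σ₀ hσ₀I σ' hσ'⟩

end Ideal

end Fermat.Agent.S33.Alg.Ordinary
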